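import Fermat.Agent.S25.H507.ChartEps

set_option autoImplicit false

universe u

open AlgebraicGeometry CategoryTheory TopologicalSpace Opposite NeronModelInfra

namespace Fermat.Agent.S25.H507

section Chart

variable (k : Type u) [Field k] [IsAlgClosed k] {C : Scheme.{u}}
  (c : C ⟶ Spec (CommRingCat.of k)) [IsProper c] [SmoothOfRelativeDimension 1 c] [IsIntegral C]
  (ε : SchemeHomOver (𝟙 (Spec (CommRingCat.of k))) c)

omit [IsAlgClosed k] [IsProper c] [IsIntegral C] in
lemma smooth_sections {U : C.Opens} (hU : IsAffineOpen U) :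
    letI := (sectionsStr c U).toAlgebra
    Algebra.Smooth k Γ(C, U) := by
  have : Smooth c := SmoothOfRelativeDimension.smooth 1 c
  have h := Fermat.Agent.S25.H747.sectionMap_smooth c hU
  rw [sectionMap_eq_sectionsStr] at h
  exact h

omit [IsProper c] in
lemma omega_invertible_sections {U : C.Opens} (hU : IsAffineOpen U) (hne : Nonempty U) :
    letI := (sectionsStr c U).toAlgebra
    Module.Invertible Γ(C, U) Ω[Γ(C, U)⁄k] := by
  let _ := (sectionsStr c U).toAlgebra
  have : Smooth c := SmoothOfRelativeDimension.smooth 1 c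
  have hft : Algebra.FiniteType k Γ(C, U) := by
    have h := Fermat.Agent.S25.H747.sectionMap_finiteType c hU
    rw [sectionMap_eq_sectionsStr] at h
    exact h
  have hloc : RingHom.Locally (RingHom.IsStandardSmoothOfRelativeDimension 1)
      (algebraMap k Γ(C, U)) := by
    have h := Fermat.Agent.S25.H747.sectionMap_locally_isStandardSmoothOfRelativeDimension c hU
    rw [sectionMap_eq_sectionsStr] at h
    exact h
  exact Fermat.Agent.S25.H207.invertible_kaehlerDifferential hloc

omit [IsAlgClosed k] [IsProper c] [SmoothOfRelativeDimension 1 c] [IsIntegral C] in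
lemma resRing_sectionsStr {U V : C.Opens} (h : V ≤ U) (a : k) :
    resRing h (sectionsStr c U a) = sectionsStr c V a := by
  simp only [resRing, sectionsStr, CommRingCat.hom_comp, RingHom.comp_apply]
  rw [← CommRingCat.comp_apply, ← Functor.map_comp]
  rfl

omit [IsAlgClosed k] [IsProper c] [SmoothOfRelativeDimension 1 c] [IsIntegral C] in
lemma aeval_finite_of_secLineHom_finite (U : C.Opens) (x : Γ(C, U))
    (h : (secLineHom c U x).Finite) :
    letI := (sectionsStr c U).toAlgebra
    (Polynomial.aeval x : Polynomial k →ₐ[k] Γ(C, U)).Finite := by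
  let _ := (sectionsStr c U).toAlgebra
  have e : secLineHom c U x = (Polynomial.aeval (R := k) x).toRingHom := by
    apply Polynomial.ringHom_ext
    · intro a
      simp [secLineHom, kSec_eq_sectionsStr, RingHom.algebraMap_toAlgebra]
    · simp [secLineHom]
  rw [e] at h
  exact h

/-- The two-chart presentation attached to a nonconstant function with a pole at `ε`. -/
noncomputable def chartOfPole (t : C.functionField) (ht : t ∉ Set.range (kToK c))
    (hmem : epsPoint k c ε ∈ regOpen C t⁻¹)
    (hvan : epsPoint k c ε ∉ C.basicOpen (regSection C t⁻¹)) : ChartOf c ε :=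
  have h := curve_two_charts_of_not_mem_range k c ht
  letI a₀ : Algebra k Γ(C, regOpen C t) := (sectionsStr c (regOpen C t)).toAlgebra
  letI a₁ : Algebra k Γ(C, regOpen C t⁻¹) := (sectionsStr c (regOpen C t⁻¹)).toAlgebra
  letI a₀₁ : Algebra k Γ(C, regOpen C t ⊓ regOpen C t⁻¹) :=
    (sectionsStr c (regOpen C t ⊓ regOpen C t⁻¹)).toAlgebra
  letI aL : Algebra Γ(C, regOpen C t) Γ(C, regOpen C t ⊓ regOpen C t⁻¹) :=
    (resRing (inf_le_left : regOpen C t ⊓ regOpen C t⁻¹ ≤ regOpen C t)).toAlgebra
  letI aR : Algebra Γ(C, regOpen C t⁻¹) Γ(C, regOpen C t ⊓ regOpen C t⁻¹) :=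
    (resRing (inf_le_right : regOpen C t ⊓ regOpen C t⁻¹ ≤ regOpen C t⁻¹)).toAlgebra
  have hmemtop : ε.1 ⁻¹ᵁ (regOpen C t⁻¹) = ⊤ := eps_preimage_eq_top k c ε _ hmem
  { B₀ := Γ(C, regOpen C t)
    B₁ := Γ(C, regOpen C t⁻¹)
    B₀₁ := Γ(C, regOpen C t ⊓ regOpen C t⁻¹)
    commRing₀ := inferInstance
    commRing₁ := inferInstance
    commRing₀₁ := inferInstance
    algebra₀ := a₀
    algebra₁ := a₁
    algebra₀₁ := a₀₁
    algebraL := aL
    algebraR := aR
    towerL := IsScalarTower.of_algebraMap_eq fun a => (resRing_sectionsStr k c _ a).symm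
    towerR := IsScalarTower.of_algebraMap_eq fun a => (resRing_sectionsStr k c _ a).symm
    x := regSection C t
    y := regSection C t⁻¹
    e :=
      { toRingHom := evalAt c ε (regOpen C t⁻¹) hmemtop
        commutes' := fun a => evalAt_sectionsStr k c ε _ hmemtop a }
    isCurveChart :=
      { isDomain₀ := inferInstance
        isDomain₁ := inferInstance
        away₀ := away_of_eq_basicOpen h.1 (regSection C t) _ inf_le_left h.2.2.2.1.symm
        away₁ := away_of_eq_basicOpen h.2.1 (regSection C t⁻¹) _ inf_le_right h.2.2.2.2.1.symm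
        mul_eq_one := h.2.2.2.2.2.1
        finite₀ := aeval_finite_of_secLineHom_finite k c _ _ h.2.2.2.2.2.2.1
        finite₁ := aeval_finite_of_secLineHom_finite k c _ _ h.2.2.2.2.2.2.2.1
        smooth₀ := smooth_sections k c h.1
        smooth₁ := smooth_sections k c h.2.1
        omega₀ := omega_invertible_sections k c h.1 inferInstance
        omega₁ := omega_invertible_sections k c h.2.1 inferInstance
        e_y := evalAt_eq_zero k c ε _ hmemtop _ hvan }
    U₀ := regOpen C t
    U₁ := regOpen C t⁻¹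
    isAffine₀ := h.1
    isAffine₁ := h.2.1
    cover := h.2.2.1
    i₀ := RingEquiv.refl _
    i₁ := RingEquiv.refl _
    i₀₁ := RingEquiv.refl _
    i₀_str := fun _ => rfl
    i₁_str := fun _ => rfl
    i₀₁_res₀ := fun _ => rfl
    i₀₁_res₁ := fun _ => rfl
    inf_eq₀ := h.2.2.2.1.symm
    inf_eq₁ := h.2.2.2.2.1.symm
    eps_mem := hmemtop
    e_eq := fun _ => rfl }

/-- **CHART (BR1)**: the curve of S25 has a two-chart presentation. -/
theorem stmt_chart : Stmt.Chart c ε := by
  obtain ⟨t, ht, hmem, hvan⟩ := exists_pole_at_eps k c ε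
  exact ⟨chartOfPole k c ε t ht hmem hvan⟩

end Chart

end Fermat.Agent.S25.H507
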