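import Fermat.Agent.S25.H507.TwoCharts
import Fermat.Agent.S25.H627.CurveSchemeB

/-!
# C4 (two charts) under the hypotheses of S25

`C` proper, smooth of relative dimension one, integral over an algebraically closed field `k`.
Every nonconstant rational function `t` gives a two-chart atlas
`U0 = regOpen C t`, `U1 = regOpen C t⁻¹` with coordinates `x = t`, `y = t⁻¹`.
The input on stalks (valuation rings) and on coordinate rings (not fields) is helper627's
C1 hand-in.
-/

set_option autoImplicit false

universe u

open AlgebraicGeometry CategoryTheory TopologicalSpace Opposite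

namespace Fermat.Agent.S25.H507

variable (k : Type u) [Field k] [IsAlgClosed k] {C : Scheme.{u}}
  (c : C ⟶ Spec (CommRingCat.of k)) [IsProper c] [SmoothOfRelativeDimension 1 c] [IsIntegral C]

/-- On the curve of S25 there is a nonconstant rational function. -/
theorem curve_exists_nonconstant : ∃ t : C.functionField, t ∉ Set.range (kToK c) := by
  obtain ⟨V, hV, hx, -, hF⟩ := Fermat.Agent.S25.H627.exists_dedekind_chart k c (genericPoint C)
  exact exists_not_mem_range_kToK c V ⟨_, hx⟩ hF

/-- **C4 for a given nonconstant function.** The regular loci of `t` and `t⁻¹` form a two-chart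
affine atlas of the curve, finite over the `t`-line resp. the `t⁻¹`-line. -/
theorem curve_two_charts_of_not_mem_range {t : C.functionField}
    (ht : t ∉ Set.range (kToK c)) :
    IsAffineOpen (regOpen C t) ∧ IsAffineOpen (regOpen C t⁻¹) ∧
      regOpen C t ⊔ regOpen C t⁻¹ = ⊤ ∧
      C.basicOpen (regSection C t) = regOpen C t ⊓ regOpen C t⁻¹ ∧
      C.basicOpen (regSection C t⁻¹) = regOpen C t ⊓ regOpen C t⁻¹ ∧
      C.presheaf.map (homOfLE (inf_le_left : regOpen C t ⊓ regOpen C t⁻¹ ≤ regOpen C t)).op
          (regSection C t) *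
        C.presheaf.map (homOfLE (inf_le_right : regOpen C t ⊓ regOpen C t⁻¹ ≤ regOpen C t⁻¹)).op
          (regSection C t⁻¹) = 1 ∧
      (secLineHom c (regOpen C t) (regSection C t)).Finite ∧
      (secLineHom c (regOpen C t⁻¹) (regSection C t⁻¹)).Finite ∧
      Function.Injective (secLineHom c (regOpen C t) (regSection C t)) ∧
      Function.Injective (secLineHom c (regOpen C t⁻¹) (regSection C t⁻¹)) :=
  two_charts_of_not_mem_range c (Fermat.Agent.S25.H627.valuationRing_stalk k c) ht

/-- **C4 (two charts)** under the hypotheses of S25. -/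
theorem curve_exists_two_charts :
    ∃ (U0 U1 : C.Opens) (x : Γ(C, U0)) (y : Γ(C, U1)),
      IsAffineOpen U0 ∧ IsAffineOpen U1 ∧ U0 ⊔ U1 = ⊤ ∧
      C.basicOpen x = U0 ⊓ U1 ∧ C.basicOpen y = U0 ⊓ U1 ∧
      C.presheaf.map (homOfLE (inf_le_left : U0 ⊓ U1 ≤ U0)).op x *
        C.presheaf.map (homOfLE (inf_le_right : U0 ⊓ U1 ≤ U1)).op y = 1 ∧
      (secLineHom c U0 x).Finite ∧ (secLineHom c U1 y).Finite ∧
      Function.Injective (secLineHom c U0 x) ∧ Function.Injective (secLineHom c U1 y) := by
  obtain ⟨t, ht⟩ := curve_exists_nonconstant k c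
  exact ⟨regOpen C t, regOpen C t⁻¹, regSection C t, regSection C t⁻¹,
    curve_two_charts_of_not_mem_range k c ht⟩

end Fermat.Agent.S25.H507
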