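import Fermat.Agent.S25.DefsDict
import Fermat.Agent.S25.H507.TwoChartsCurve
import Fermat.Agent.S25.H747.Bridge
import Fermat.Agent.S25.H207.Omega

set_option autoImplicit false

universe u

open AlgebraicGeometry CategoryTheory TopologicalSpace Opposite NeronModelInfra

namespace Fermat.Agent.S25.H507

section General

variable {k : Type u} [Field k] {C : Scheme.{u}} (c : C ⟶ Spec (CommRingCat.of k))

lemma kSec_eq_sectionsStr (U : C.Opens) : kSec c U = sectionsStr c U := rfl

lemma sectionMap_eq_sectionsStr (U : C.Opens) :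
    Fermat.Agent.S25.H747.sectionMap c U = sectionsStr c U := by
  ext a
  simp only [Fermat.Agent.S25.H747.sectionMap, sectionsStr, Scheme.Hom.appLE,
    CommRingCat.hom_comp, RingHom.comp_apply]
  rfl

/-- Localization property of the restriction to an open equal to a basic open. -/
lemma away_of_eq_basicOpen {U : C.Opens} (hU : IsAffineOpen U) (f : Γ(C, U)) (V : C.Opens)
    (hle : V ≤ U) (hV : V = C.basicOpen f) :
    @IsLocalization.Away Γ(C, U) _ f Γ(C, V) _ (resRing hle).toAlgebra := by
  subst hV
  exact hU.isLocalization_basicOpen f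

variable [IsIntegral C]

/-- The constants inside a stalk. -/
lemma algebraMap_germ_kSec_top (P : C) (hP : P ∈ (⊤ : C.Opens)) (b : k) :
    algebraMap (C.presheaf.stalk P) C.functionField
      (C.presheaf.germ ⊤ P hP (kSec c ⊤ b)) = kToK c b := by
  rw [algebraMap_germ_eq_germ_genericPoint, germ_kSec]

/-- A nonzero element of the maximal ideal of a stalk is a nonconstant rational function. -/
lemma not_mem_range_kToK_of_mem_maximalIdeal (P : C) (a : C.presheaf.stalk P)
    (ha : a ∈ IsLocalRing.maximalIdeal (C.presheaf.stalk P)) (ha0 : a ≠ 0) :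
    algebraMap (C.presheaf.stalk P) C.functionField a ∉ Set.range (kToK c) := by
  rintro ⟨b, hb⟩
  have hP : P ∈ (⊤ : C.Opens) := Opens.mem_top P
  rw [← algebraMap_germ_kSec_top c P hP b] at hb
  have hab := algebraMap_stalk_injective C P hb
  by_cases hb0 : b = 0
  · apply ha0
    rw [← hab, hb0, map_zero, map_zero]
  · have hu : IsUnit (C.presheaf.germ ⊤ P hP (kSec c ⊤ b)) :=
      ((isUnit_iff_ne_zero.mpr hb0).map (kSec c ⊤)).map (C.presheaf.germ ⊤ P hP).hom
    rw [hab] at hu
    exact (IsLocalRing.mem_maximalIdeal a).mp ha hu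

/-- If `t⁻¹` comes from an element `a` of the maximal ideal at `P`, then `P` lies in the
second chart and the coordinate `y = t⁻¹` vanishes at `P`. -/
lemma mem_regOpen_inv_and_not_mem_basicOpen (P : C) (a : C.presheaf.stalk P)
    (ha : a ∈ IsLocalRing.maximalIdeal (C.presheaf.stalk P)) (t : C.functionField)
    (hat : algebraMap (C.presheaf.stalk P) C.functionField a = t⁻¹) :
    P ∈ regOpen C t⁻¹ ∧ P ∉ C.basicOpen (regSection C t⁻¹) := by
  have hP : P ∈ regOpen C t⁻¹ := ⟨a, hat⟩
  refine ⟨hP, fun hb => ?_⟩
  rw [Scheme.mem_basicOpen C _ P hP] at hb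
  have h1 := (algebraMap_germ_regSection C t⁻¹ hP).trans hat.symm
  rw [algebraMap_stalk_injective C P h1] at hb
  exact (IsLocalRing.mem_maximalIdeal a).mp ha hb

end General

end Fermat.Agent.S25.H507
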