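import Fermat.Agent.S25.H507.ChartAux

set_option autoImplicit false

universe u

open AlgebraicGeometry CategoryTheory TopologicalSpace Opposite NeronModelInfra

namespace Fermat.Agent.S25.H507

section Chart

variable (k : Type u) [Field k] [IsAlgClosed k] {C : Scheme.{u}}
  (c : C ⟶ Spec (CommRingCat.of k)) [IsProper c] [SmoothOfRelativeDimension 1 c] [IsIntegral C]
  (ε : SchemeHomOver (𝟙 (Spec (CommRingCat.of k))) c)

/-- The marked point of the curve. -/
noncomputable def epsPoint : C := ε.1 (IsLocalRing.closedPoint k)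

omit [SmoothOfRelativeDimension 1 c] [IsIntegral C] in
lemma isClosed_epsPoint : IsClosed ({epsPoint k c ε} : Set C) :=
  ((pointEquivClosedPoint c) ⟨ε.1, ε.2⟩).2

omit [IsAlgClosed k] [IsProper c] [SmoothOfRelativeDimension 1 c] [IsIntegral C] in
lemma eps_apply (z : Spec (CommRingCat.of k)) : ε.1 z = epsPoint k c ε := by
  have : z = IsLocalRing.closedPoint k := Subsingleton.elim (α := PrimeSpectrum k) _ _
  rw [this]
  rfl

/-- There is a nonconstant rational function with a pole at the marked point. -/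
theorem exists_pole_at_eps :
    ∃ t : C.functionField, t ∉ Set.range (kToK c) ∧ epsPoint k c ε ∈ regOpen C t⁻¹ ∧
      epsPoint k c ε ∉ C.basicOpen (regSection C t⁻¹) := by
  have hdvr := Fermat.Agent.S25.H627.isDiscreteValuationRing_stalk_of_isClosed k c
    (epsPoint k c ε) (isClosed_epsPoint k c ε)
  have hne : IsLocalRing.maximalIdeal (C.presheaf.stalk (epsPoint k c ε)) ≠ ⊥ := by
    intro h
    exact IsDiscreteValuationRing.not_isField _ (IsLocalRing.isField_iff_maximalIdeal_eq.mpr h)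
  obtain ⟨a, ha, ha0⟩ := Submodule.exists_mem_ne_zero_of_ne_bot hne
  have hs := not_mem_range_kToK_of_mem_maximalIdeal c (epsPoint k c ε) a ha ha0
  refine ⟨(algebraMap (C.presheaf.stalk (epsPoint k c ε)) C.functionField a)⁻¹,
    inv_not_mem_range_kToK c hs, ?_⟩
  exact mem_regOpen_inv_and_not_mem_basicOpen (epsPoint k c ε) a ha _ (inv_inv _).symm

omit [IsAlgClosed k] [IsProper c] [SmoothOfRelativeDimension 1 c] [IsIntegral C] in
lemma eps_preimage_eq_top (U : C.Opens) (h : epsPoint k c ε ∈ U) : ε.1 ⁻¹ᵁ U = ⊤ := by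
  ext z
  simp only [Opens.coe_top, Set.mem_univ, iff_true]
  change ε.1 z ∈ U
  rw [eps_apply]
  exact h

omit [IsAlgClosed k] [IsProper c] [SmoothOfRelativeDimension 1 c] [IsIntegral C] in
/-- Evaluation at the marked point is a `k`-algebra retraction. -/
lemma evalAt_sectionsStr (U : C.Opens) (h : ε.1 ⁻¹ᵁ U = ⊤) (a : k) :
    evalAt c ε U h (sectionsStr c U a) = a := by
  have h1 : C.presheaf.map (homOfLE (le_top : U ≤ ⊤)).op ≫
      ε.1.appLE U ⊤ (le_of_eq h.symm) = ε.1.appTop := by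
    rw [Scheme.Hom.map_appLE, ← appTop_eq_appLE]
  have h2 : c.appTop ≫ ε.1.appTop = 𝟙 _ := by
    rw [← Scheme.Hom.comp_appTop, ε.2]
    rfl
  have h3 : ((Scheme.ΓSpecIso (CommRingCat.of k)).inv ≫ c.appTop ≫
      C.presheaf.map (homOfLE (le_top : U ≤ ⊤)).op) ≫
      (ε.1.appLE U ⊤ (le_of_eq h.symm) ≫ (Scheme.ΓSpecIso (CommRingCat.of k)).hom) = 𝟙 _ := by
    simp only [Category.assoc]
    rw [reassoc_of% h1, reassoc_of% h2, Iso.inv_hom_id]
  exact congrArg (fun φ => φ.hom a) h3

omit [IsAlgClosed k] [IsProper c] [SmoothOfRelativeDimension 1 c] [IsIntegral C] in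
/-- A function vanishing at the marked point evaluates to zero. -/
lemma evalAt_eq_zero (U : C.Opens) (h : ε.1 ⁻¹ᵁ U = ⊤) (y : Γ(C, U))
    (hy : epsPoint k c ε ∉ C.basicOpen y) : evalAt c ε U h y = 0 := by
  by_contra hne
  have hu : IsUnit (evalAt c ε U h y) := isUnit_iff_ne_zero.mpr hne
  have hu2 : IsUnit (ε.1.appLE U ⊤ (le_of_eq h.symm) y) := by
    have h3 := hu.map (Scheme.ΓSpecIso (CommRingCat.of k)).inv.hom
    have h4 : (Scheme.ΓSpecIso (CommRingCat.of k)).inv.hom (evalAt c ε U h y) =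
        ε.1.appLE U ⊤ (le_of_eq h.symm) y := by
      simp only [evalAt, CommRingCat.hom_comp, RingHom.comp_apply]
      exact congrArg (fun φ => φ.hom (ε.1.appLE U ⊤ (le_of_eq h.symm) y))
        (Scheme.ΓSpecIso (CommRingCat.of k)).hom_inv_id
    rwa [h4] at h3
  have h5 := Scheme.basicOpen_of_isUnit _ hu2
  rw [Scheme.basicOpen_appLE] at h5
  have h6 : IsLocalRing.closedPoint k ∈ (⊤ : (Spec (CommRingCat.of k)).Opens) := trivial
  rw [← h5] at h6
  exact hy h6.2

end Chart

end Fermat.Agent.S25.H507
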