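import Fermat.Agent.S25.H507.DimOne

set_option autoImplicit false

universe u

open AlgebraicGeometry CategoryTheory TopologicalSpace Opposite

namespace Fermat.Agent.S25.H507

section Line

variable {k : Type u} [Field k] {Y : Scheme.{u}}

lemma toLine_appTop (g : Y ⟶ Spec (CommRingCat.of k)) (x : Γ(Y, ⊤)) (p : Polynomial k) :
    (toLine g x).appTop ((Scheme.ΓSpecIso (CommRingCat.of (Polynomial k))).inv p) =
      lineRingHom g x p := by
  simp only [toLine, Scheme.Hom.comp_appTop, Scheme.toSpecΓ_appTop,
    Scheme.ΓSpecIso_naturality]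
  simp

instance lineStr_locallyOfFiniteType : LocallyOfFiniteType (lineStr k) := by
  rw [lineStr, HasRingHomProperty.Spec_iff (P := @LocallyOfFiniteType)]
  have h : (CommRingCat.ofHom (Polynomial.C : k →+* Polynomial k)).hom =
      algebraMap k (Polynomial k) := rfl
  rw [h, RingHom.finiteType_algebraMap]
  infer_instance

lemma mem_preimage_basicOpen_toLine (g : Y ⟶ Spec (CommRingCat.of k)) (x : Γ(Y, ⊤))
    (p : Polynomial k) (z : Y) :
    p ∉ PrimeSpectrum.asIdeal (toLine g x z) ↔ z ∈ Y.basicOpen (lineRingHom g x p) := by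
  rw [← toLine_appTop, ← Scheme.preimage_basicOpen_top, basicOpen_eq_of_affine]
  rfl

/-- The image of a `k`-rational closed point under a `k`-morphism to the affine line is closed. -/
lemma isClosed_singleton_apply_of_section [IsAlgClosed k] (φ : Y ⟶ Spec (CommRingCat.of (Polynomial k)))
    (σ : Spec (CommRingCat.of k) ⟶ Y) (hσ : σ ≫ φ ≫ lineStr k = 𝟙 _) :
    IsClosed ({φ (σ (IsLocalRing.closedPoint k))} : Set (Spec (CommRingCat.of (Polynomial k)))) := by
  have h := ((pointEquivClosedPoint (lineStr k)) ⟨σ ≫ φ, by rw [Category.assoc]; exact hσ⟩).2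
  exact h

end Line

variable {k : Type u} [Field k] {X : Scheme.{u}} [IsIntegral X] (c : X ⟶ Spec (CommRingCat.of k))

/-- The generic point, as a point of the regular locus. -/
noncomputable def regGeneric (t : X.functionField) : (regOpen X t).toScheme :=
  ⟨genericPoint X, genericPoint_mem_regOpen X t⟩

instance nonempty_regOpen (t : X.functionField) : Nonempty (regOpen X t) :=
  ⟨regGeneric t⟩

lemma regGeneric_eq (t : X.functionField) :
    regGeneric t = genericPoint (regOpen X t).toScheme := by
  apply (regOpen X t).ι.isOpenEmbedding.injective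
  rw [genericPoint_eq_of_isOpenImmersion]
  rfl

lemma genericPoint_mem_basicOpen_iff {Y : Scheme.{u}} [IsIntegral Y] (s : Γ(Y, ⊤)) :
    genericPoint Y ∈ Y.basicOpen s ↔ s ≠ 0 := by
  rw [Scheme.mem_basicOpen_top]
  constructor
  · rintro h rfl
    rw [map_zero] at h
    exact not_isUnit_zero h
  · intro h
    have hinj := germ_injective_of_isIntegral Y (genericPoint Y) (U := ⊤) trivial
    have : Y.presheaf.germ ⊤ (genericPoint Y) trivial s ≠ 0 := by
      intro h0
      apply h
      apply hinj
      rw [h0, map_zero]
    exact (isUnit_iff_ne_zero (G₀ := Y.functionField)).mpr this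

/-- The generic point does not map to a closed point under a chart given by a transcendental
function. -/
lemma not_isClosed_chartHom_regGeneric (t : X.functionField)
    (hinj : Function.Injective
      (lineRingHom ((regOpen X t).ι ≫ c) ((regOpen X t).topIso.inv (regSection X t)))) :
    ¬ IsClosed ({chartHom c t (regGeneric t)} :
      Set (Spec (CommRingCat.of (Polynomial k)))) := by
  intro hcl
  have hmax : (PrimeSpectrum.asIdeal (chartHom c t (regGeneric t))).IsMaximal :=
    (PrimeSpectrum.isClosed_singleton_iff_isMaximal _).mp hcl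
  have hne : PrimeSpectrum.asIdeal (chartHom c t (regGeneric t)) ≠ ⊥ := by
    intro h
    rw [h] at hmax
    exact Polynomial.not_isField k (Ring.isField_iff_maximal_bot.mpr hmax)
  obtain ⟨p, hp, hp0⟩ := Submodule.exists_mem_ne_zero_of_ne_bot hne
  have h1 := (mem_preimage_basicOpen_toLine ((regOpen X t).ι ≫ c)
    ((regOpen X t).topIso.inv (regSection X t)) p (regGeneric t)).not
  rw [not_not] at h1
  have h2 := h1.mp hp
  rw [regGeneric_eq, genericPoint_mem_basicOpen_iff, not_not] at h2
  exact hp0 (hinj (h2.trans (map_zero _).symm))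

end Fermat.Agent.S25.H507
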