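import Fermat.Agent.S25.H507.ChartFibre

set_option autoImplicit false

universe u

open AlgebraicGeometry CategoryTheory TopologicalSpace Opposite

namespace Fermat.Agent.S25.H507

variable {k : Type u} [Field k] {X : Scheme.{u}} [IsIntegral X] (c : X ⟶ Spec (CommRingCat.of k))

/-- closed points of `X` inside the regular locus map to closed points of the line. -/
lemma isClosed_singleton_chartHom [IsAlgClosed k] [IsProper c] (t : X.functionField)
    (z : (regOpen X t).toScheme) (hz : IsClosed ({z.1} : Set X)) :
    IsClosed ({chartHom c t z} : Set (Spec (CommRingCat.of (Polynomial k)))) := by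
  let σ : Spec (CommRingCat.of k) ⟶ X := pointOfClosedPoint c z.1 hz
  have hσ : σ ≫ c = 𝟙 _ := pointOfClosedPoint_comp c z.1 hz
  have hσa : ∀ a, σ a = z.1 := pointOfClosedPoint_apply c z.1 hz
  have hrange : Set.range σ ⊆ Set.range (regOpen X t).ι := by
    rw [Scheme.Opens.range_ι]
    rintro _ ⟨a, rfl⟩
    rw [hσa]
    exact z.2
  let σ₀ := IsOpenImmersion.lift (regOpen X t).ι σ hrange
  have hσ₀ : σ₀ ≫ (regOpen X t).ι = σ := IsOpenImmersion.lift_fac _ _ _
  have h := isClosed_singleton_apply_of_section (chartHom c t) σ₀ (by
    rw [chartHom_lineStr, ← Category.assoc, hσ₀, hσ])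
  have hz' : σ₀ (IsLocalRing.closedPoint k) = z := by
    apply (regOpen X t).ι.isOpenEmbedding.injective
    have h3 : (σ₀ ≫ (regOpen X t).ι) (IsLocalRing.closedPoint k) = z.1 := by
      rw [hσ₀]; exact hσa _
    exact h3
  rw [hz'] at h
  exact h

theorem chartHom_finite_preimage_singleton [IsAlgClosed k] [IsProper c] (t : X.functionField)
    (hval : ∀ P : X, ValuationRing (X.presheaf.stalk P))
    (hinj : Function.Injective
      (lineRingHom ((regOpen X t).ι ≫ c) ((regOpen X t).topIso.inv (regSection X t))))
    (y : Spec (CommRingCat.of (Polynomial k))) :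
    (chartHom c t ⁻¹' {y}).Finite := by
  have hN := isNoetherian_of_proper c
  have := noetherianSpace_opens c (regOpen X t)
  -- points other than the generic point are closed
  have hcl : ∀ z : (regOpen X t).toScheme, z ≠ regGeneric t → IsClosed ({z.1} : Set X) := by
    intro z hz
    apply isClosed_singleton_of_ne_genericPoint hval
    intro h
    apply hz
    exact Subtype.ext h
  have hcl' : ∀ z : (regOpen X t).toScheme, z ≠ regGeneric t →
      IsClosed ({z} : Set (regOpen X t).toScheme) := by
    intro z hz
    have h1 := (hcl z hz).preimage (regOpen X t).ι.continuous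
    have h2 : (regOpen X t).ι ⁻¹' {z.1} = {z} := by
      ext w
      simp only [Set.mem_preimage, Set.mem_singleton_iff]
      constructor
      · intro h; exact Subtype.ext h
      · rintro rfl; rfl
    rwa [h2] at h1
  by_cases hy : IsClosed ({y} : Set (Spec (CommRingCat.of (Polynomial k))))
  · have hF : IsClosed (chartHom c t ⁻¹' {y}) := hy.preimage (chartHom c t).continuous
    apply finite_of_isClosed_of_forall_isClosed_singleton hF
    intro z hz
    apply hcl'
    rintro rfl
    apply not_isClosed_chartHom_regGeneric c t hinj
    rw [Set.mem_preimage, Set.mem_singleton_iff] at hz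
    rw [hz]
    exact hy
  · apply Set.Finite.subset (Set.finite_singleton (regGeneric t))
    intro z hz
    rw [Set.mem_preimage, Set.mem_singleton_iff] at hz
    by_contra hne
    apply hy
    rw [← hz]
    exact isClosed_singleton_chartHom c t z (hcl z hne)

theorem chartHom_isFinite [IsAlgClosed k] [IsProper c] {t : X.functionField} (ht : t ≠ 0)
    (hval : ∀ P : X, ValuationRing (X.presheaf.stalk P))
    (hinj : Function.Injective
      (lineRingHom ((regOpen X t).ι ≫ c) ((regOpen X t).topIso.inv (regSection X t)))) :
    IsFinite (chartHom c t) := by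
  have := chartHom_isProper c ht hval
  have : LocallyQuasiFinite (chartHom c t) :=
    LocallyQuasiFinite.of_finite_preimage_singleton _
      (chartHom_finite_preimage_singleton c t hval hinj)
  exact IsFinite.of_isProper_of_locallyQuasiFinite _

theorem isAffineOpen_regOpen [IsAlgClosed k] [IsProper c] {t : X.functionField} (ht : t ≠ 0)
    (hval : ∀ P : X, ValuationRing (X.presheaf.stalk P))
    (hinj : Function.Injective
      (lineRingHom ((regOpen X t).ι ≫ c) ((regOpen X t).topIso.inv (regSection X t)))) :
    IsAffineOpen (regOpen X t) := by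
  have := chartHom_isFinite c ht hval hinj
  exact isAffine_of_isAffineHom (chartHom c t)

theorem lineRingHom_finite [IsAlgClosed k] [IsProper c] {t : X.functionField} (ht : t ≠ 0)
    (hval : ∀ P : X, ValuationRing (X.presheaf.stalk P))
    (hinj : Function.Injective
      (lineRingHom ((regOpen X t).ι ≫ c) ((regOpen X t).topIso.inv (regSection X t)))) :
    (lineRingHom ((regOpen X t).ι ≫ c) ((regOpen X t).topIso.inv (regSection X t))).Finite := by
  have hfin := chartHom_isFinite c ht hval hinj
  have h1 := (chartHom c t).finite_appTop
  have h2 : lineRingHom ((regOpen X t).ι ≫ c) ((regOpen X t).topIso.inv (regSection X t)) =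
      (chartHom c t).appTop.hom.comp
        (Scheme.ΓSpecIso (CommRingCat.of (Polynomial k))).inv.hom := by
    refine RingHom.ext fun p => ?_
    exact (toLine_appTop ((regOpen X t).ι ≫ c) _ p).symm
  rw [h2]
  refine RingHom.Finite.comp h1 (RingHom.Finite.of_surjective _ ?_)
  exact (ConcreteCategory.bijective_of_isIso
    (Scheme.ΓSpecIso (CommRingCat.of (Polynomial k))).inv).2

end Fermat.Agent.S25.H507
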