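import Fermat.Agent.S25.H507.RegOpen

set_option autoImplicit false

universe u

open AlgebraicGeometry CategoryTheory TopologicalSpace Opposite

namespace Fermat.Agent.S25.H507

section Aux

variable {X : Scheme.{u}}

lemma appTop_eq_appLE {Z Z' : Scheme.{u}} (f' : Z ⟶ Z')
    (h : (⊤ : Z.Opens) ≤ f' ⁻¹ᵁ ⊤) :
    f'.appTop = f'.appLE ⊤ ⊤ h := by
  simp only [Scheme.Hom.appLE]
  erw [CategoryTheory.Functor.map_id, Category.comp_id]

lemma appTop_appLE {Z Z' : Scheme.{u}} (U : X.Opens) (f' : Z ⟶ Z') (l : Z' ⟶ X) (s : Γ(X, U))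
    (e : (⊤ : Z'.Opens) ≤ l ⁻¹ᵁ U) (e' : (⊤ : Z.Opens) ≤ (f' ≫ l) ⁻¹ᵁ U) :
    f'.appTop (l.appLE U ⊤ e s) = (f' ≫ l).appLE U ⊤ e' s := by
  rw [← CommRingCat.comp_apply]
  congr 2
  rw [appTop_eq_appLE f' f'.preimage_top.ge, Scheme.Hom.appLE_comp_appLE]

lemma appTop_topIso_inv {Z : Scheme.{u}} (U : X.Opens) (i₁ : Z ⟶ U.toScheme) (s : Γ(X, U))
    (e : (⊤ : Z.Opens) ≤ (i₁ ≫ U.ι) ⁻¹ᵁ U) :
    i₁.appTop (U.topIso.inv s) = (i₁ ≫ U.ι).appLE U ⊤ e s := by
  have h2 : U.topIso.inv = U.ι.appLE U ⊤ U.ι_preimage_self.ge := by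
    rw [Scheme.Opens.ι_appLE, Scheme.Opens.topIso_inv]
    rfl
  rw [h2]
  exact appTop_appLE U i₁ U.ι s _ e

lemma appLE_regSection_mul [IsIntegral X] {t : X.functionField} (ht : t ≠ 0) {Z : Scheme.{u}}
    (j : Z ⟶ X) (h0 : (⊤ : Z.Opens) ≤ j ⁻¹ᵁ (regOpen X t))
    (h1 : (⊤ : Z.Opens) ≤ j ⁻¹ᵁ (regOpen X t⁻¹)) :
    j.appLE (regOpen X t) ⊤ h0 (regSection X t) *
      j.appLE (regOpen X t⁻¹) ⊤ h1 (regSection X t⁻¹) = 1 := by
  have hW : (⊤ : Z.Opens) ≤ j ⁻¹ᵁ (regOpen X t ⊓ regOpen X t⁻¹) := fun z hz => ⟨h0 hz, h1 hz⟩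
  have e0 := j.map_appLE hW (homOfLE (inf_le_left : regOpen X t ⊓ regOpen X t⁻¹ ≤ regOpen X t)).op
  have e1 := j.map_appLE hW
    (homOfLE (inf_le_right : regOpen X t ⊓ regOpen X t⁻¹ ≤ regOpen X t⁻¹)).op
  have e0' := congrArg (fun φ => φ.hom (regSection X t)) e0
  have e1' := congrArg (fun φ => φ.hom (regSection X t⁻¹)) e1
  simp only [CommRingCat.hom_comp, RingHom.comp_apply] at e0' e1'
  erw [← e0', ← e1']
  rw [← map_mul]
  erw [regSection_mul_regSection_inv X ht]
  rw [map_one]

lemma appLE_congr_hom {Z : Scheme.{u}} {j j' : Z ⟶ X} (h : j = j') (U : X.Opens) (V : Z.Opens)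
    (e : V ≤ j ⁻¹ᵁ U) (e' : V ≤ j' ⁻¹ᵁ U) : j.appLE U V e = j'.appLE U V e' := by
  subst h
  rfl

/-- A morphism from the spectrum of a local ring lands in an open set as soon as the closed
point does. -/
lemma range_subset_of_closedPoint_mem {R : Type u} [CommRing R] [IsLocalRing R]
    (l : Spec (CommRingCat.of R) ⟶ X) (U : X.Opens)
    (h : l (IsLocalRing.closedPoint R) ∈ U) : ∀ z, l z ∈ U := by
  intro z
  have hz : z ⤳ IsLocalRing.closedPoint R := IsLocalRing.specializes_closedPoint z
  exact (hz.map l.continuous).mem_open U.isOpen h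

lemma appTop_SpecMap_injective {R K : Type u} [CommRing R] [CommRing K] (f : R →+* K)
    (hf : Function.Injective f) :
    Function.Injective (Spec.map (CommRingCat.ofHom f)).appTop := by
  have h : (Spec.map (CommRingCat.ofHom f)).appTop =
      (Scheme.ΓSpecIso (CommRingCat.of R)).hom ≫ CommRingCat.ofHom f ≫
        (Scheme.ΓSpecIso (CommRingCat.of K)).inv := by
    rw [← Scheme.ΓSpecIso_naturality_assoc, Iso.hom_inv_id, Category.comp_id]
  rw [h]
  intro a b hab
  simp only [CommRingCat.comp_apply] at hab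
  have h1 := (ConcreteCategory.injective_of_mono_of_preservesPullback
    (Scheme.ΓSpecIso (CommRingCat.of K)).inv) hab
  have h2 := hf h1
  exact (ConcreteCategory.injective_of_mono_of_preservesPullback
    (Scheme.ΓSpecIso (CommRingCat.of R)).hom) h2

/-- Morphisms out of `Spec R` into an affine scheme agree if they agree after restriction along
`Spec K ⟶ Spec R` for an injective ring map `R → K`. -/
lemma eq_of_SpecMap_comp_eq {R K A : Type u} [CommRing R] [CommRing K] [CommRing A]
    (f : R →+* K) (hf : Function.Injective f)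
    (g₁ g₂ : Spec (CommRingCat.of R) ⟶ Spec (CommRingCat.of A))
    (h : Spec.map (CommRingCat.ofHom f) ≫ g₁ = Spec.map (CommRingCat.ofHom f) ≫ g₂) :
    g₁ = g₂ := by
  obtain ⟨φ₁, rfl⟩ := Spec.map_surjective g₁
  obtain ⟨φ₂, rfl⟩ := Spec.map_surjective g₂
  rw [← Spec.map_comp, ← Spec.map_comp] at h
  have h' := Spec.map_injective h
  congr 1
  ext a
  apply hf
  have := congrArg (fun φ => φ.hom a) h'
  simpa using this

end Aux

variable {k : Type u} [Field k] {X : Scheme.{u}} [IsIntegral X] (c : X ⟶ Spec (CommRingCat.of k))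

/-- The chart morphism `regOpen X t ⟶ 𝔸¹` given by the rational function `t`. -/
noncomputable def chartHom (t : X.functionField) :
    (regOpen X t).toScheme ⟶ Spec (CommRingCat.of (Polynomial k)) :=
  toLine ((regOpen X t).ι ≫ c) ((regOpen X t).topIso.inv (regSection X t))

lemma chartHom_lineStr (t : X.functionField) :
    chartHom c t ≫ lineStr k = (regOpen X t).ι ≫ c :=
  toLine_lineStr _ _

lemma chartHom_appTop_lineCoord (t : X.functionField) :
    (chartHom c t).appTop (lineCoord k) = (regOpen X t).topIso.inv (regSection X t) :=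
  toLine_appTop_lineCoord _ _

/-- Key step of the valuative criterion. -/
lemma closedPoint_mem_regOpen {t : X.functionField} (ht : t ≠ 0)
    (hval : ∀ P : X, ValuationRing (X.presheaf.stalk P))
    {R K : Type u} [CommRing R] [IsLocalRing R] [CommRing K] (f : R →+* K)
    (hf : Function.Injective f)
    (l : Spec (CommRingCat.of R) ⟶ X) (i₁ : Spec (CommRingCat.of K) ⟶ (regOpen X t).toScheme)
    (hl : Spec.map (CommRingCat.ofHom f) ≫ l = i₁ ≫ (regOpen X t).ι)
    (b : Γ(Spec (CommRingCat.of R), ⊤))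
    (hb : (Spec.map (CommRingCat.ofHom f)).appTop b =
      i₁.appTop ((regOpen X t).topIso.inv (regSection X t))) :
    l (IsLocalRing.closedPoint R) ∈ regOpen X t := by
  by_contra hP
  have hP1 : l (IsLocalRing.closedPoint R) ∈ regOpen X t⁻¹ := by
    have := hval (l (IsLocalRing.closedPoint R))
    exact (regOpen_sup_regOpen_inv X t _).resolve_left hP
  have hall : ∀ z, l z ∈ regOpen X t⁻¹ := range_subset_of_closedPoint_mem l _ hP1
  have hle : (⊤ : (Spec (CommRingCat.of R)).Opens) ≤ l ⁻¹ᵁ (regOpen X t⁻¹) := fun z _ => hall z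
  set a := l.appLE (regOpen X t⁻¹) ⊤ hle (regSection X t⁻¹) with ha
  have hab : a * b = 1 := by
    apply appTop_SpecMap_injective f hf
    rw [map_mul, map_one, hb, mul_comm]
    have h0 : (⊤ : (Spec (CommRingCat.of K)).Opens) ≤
        (Spec.map (CommRingCat.ofHom f) ≫ l) ⁻¹ᵁ (regOpen X t) := by
      rw [hl]
      intro z _
      exact (i₁ z).2
    have h1 : (⊤ : (Spec (CommRingCat.of K)).Opens) ≤
        (Spec.map (CommRingCat.ofHom f) ≫ l) ⁻¹ᵁ (regOpen X t⁻¹) := fun z _ => hall _
    rw [ha, appTop_appLE (regOpen X t⁻¹) (Spec.map (CommRingCat.ofHom f)) l _ hle h1]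
    have h0' : (⊤ : (Spec (CommRingCat.of K)).Opens) ≤ (i₁ ≫ (regOpen X t).ι) ⁻¹ᵁ (regOpen X t) :=
      hl ▸ h0
    rw [appTop_topIso_inv (regOpen X t) i₁ _ h0']
    have := appLE_regSection_mul ht (Spec.map (CommRingCat.ofHom f) ≫ l) h0 h1
    have hcg : (i₁ ≫ (regOpen X t).ι).appLE (regOpen X t) ⊤ h0' =
        (Spec.map (CommRingCat.ofHom f) ≫ l).appLE (regOpen X t) ⊤ h0 :=
      appLE_congr_hom hl.symm _ _ _ _
    rw [hcg]
    exact this
  have hu : IsUnit a := IsUnit.of_mul_eq_one b hab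
  have h1 : (Spec (CommRingCat.of R)).basicOpen a = ⊤ := Scheme.basicOpen_of_isUnit _ hu
  rw [ha, Scheme.basicOpen_appLE] at h1
  have h2 : IsLocalRing.closedPoint R ∈ (⊤ : (Spec (CommRingCat.of R)).Opens) := trivial
  rw [← h1] at h2
  have h3 : l (IsLocalRing.closedPoint R) ∈ X.basicOpen (regSection X t⁻¹) := h2.2
  rw [basicOpen_regSection_inv X ht] at h3
  exact hP h3.1

theorem chartHom_existence [IsProper c] {t : X.functionField} (ht : t ≠ 0)
    (hval : ∀ P : X, ValuationRing (X.presheaf.stalk P)) :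
    ValuativeCriterion.Existence (chartHom c t) := by
  intro S
  have hc : ValuativeCriterion.Existence c := by
    have : (ValuativeCriterion.Existence ⊓ @QuasiCompact) c := by
      rw [← UniversallyClosed.eq_valuativeCriterion]; infer_instance
    exact this.1
  let S' : ValuativeCommSq c :=
    { R := S.R
      K := S.K
      i₁ := S.i₁ ≫ (regOpen X t).ι
      i₂ := S.i₂ ≫ lineStr k
      commSq := ⟨by
        rw [Category.assoc, ← chartHom_lineStr, ← Category.assoc, S.commSq.w, Category.assoc]⟩ }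
  have hlift := hc S'
  obtain ⟨⟨l, hl1, hl2⟩⟩ := hlift
  have hinj : Function.Injective (algebraMap S.R S.K) := IsFractionRing.injective S.R S.K
  have hmem : l (IsLocalRing.closedPoint S.R) ∈ regOpen X t := by
    refine closedPoint_mem_regOpen ht hval (algebraMap S.R S.K) hinj l S.i₁ hl1
      (S.i₂.appTop (lineCoord k)) ?_
    rw [← chartHom_appTop_lineCoord c t, ← CommRingCat.comp_apply, ← CommRingCat.comp_apply,
      ← Scheme.Hom.comp_appTop, ← Scheme.Hom.comp_appTop, S.commSq.w]
  have hrange : Set.range l ⊆ Set.range (regOpen X t).ι := by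
    rw [Scheme.Opens.range_ι]
    rintro _ ⟨z, rfl⟩
    exact range_subset_of_closedPoint_mem l _ hmem z
  refine ⟨⟨⟨IsOpenImmersion.lift (regOpen X t).ι l hrange, ?_, ?_⟩⟩⟩
  · rw [← cancel_mono (regOpen X t).ι, Category.assoc, IsOpenImmersion.lift_fac]
    exact hl1
  · apply eq_of_SpecMap_comp_eq (algebraMap S.R S.K) hinj
    rw [← S.commSq.w, ← Category.assoc]
    congr 1
    rw [← cancel_mono (regOpen X t).ι, Category.assoc, IsOpenImmersion.lift_fac]
    exact hl1

omit [IsIntegral X] in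
lemma isNoetherian_of_proper [IsProper c] : IsNoetherian X := by
  have h1 : IsLocallyNoetherian X := LocallyOfFiniteType.isLocallyNoetherian c
  have h2 : CompactSpace X := QuasiCompact.compactSpace_of_compactSpace c
  exact { }

omit [IsIntegral X] in
lemma noetherianSpace_opens [IsProper c] (U : X.Opens) : NoetherianSpace U.toScheme := by
  have := isNoetherian_of_proper c
  have : NoetherianSpace X := inferInstance
  exact NoetherianSpace.set (U : Set X)

instance chartHom_isSeparated [IsProper c] (t : X.functionField) : IsSeparated (chartHom c t) := by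
  have : IsSeparated (chartHom c t ≫ lineStr k) := by
    rw [chartHom_lineStr]; infer_instance
  exact IsSeparated.of_comp (chartHom c t) (lineStr k)

instance chartHom_locallyOfFiniteType [IsProper c] (t : X.functionField) :
    LocallyOfFiniteType (chartHom c t) := by
  have : LocallyOfFiniteType (chartHom c t ≫ lineStr k) := by
    rw [chartHom_lineStr]; infer_instance
  exact locallyOfFiniteType_of_comp (chartHom c t) (lineStr k)

theorem chartHom_isProper [IsProper c] {t : X.functionField} (ht : t ≠ 0)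
    (hval : ∀ P : X, ValuationRing (X.presheaf.stalk P)) :
    IsProper (chartHom c t) := by
  have := noetherianSpace_opens c (regOpen X t)
  have : QuasiCompact (chartHom c t) := inferInstance
  have : UniversallyClosed (chartHom c t) :=
    UniversallyClosed.of_valuativeCriterion _ (chartHom_existence c ht hval)
  exact { }

end Fermat.Agent.S25.H507
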