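import Fermat.Agent.S25.H507.ChartProper

set_option autoImplicit false

universe u

open AlgebraicGeometry CategoryTheory TopologicalSpace Opposite

namespace Fermat.Agent.S25.H507

lemma prime_eq_bot_or_eq_maximalIdeal (R : Type*) [CommRing R] [IsDomain R] [ValuationRing R]
    [IsNoetherianRing R] (p : Ideal R) [hp : p.IsPrime] :
    p = ⊥ ∨ p = IsLocalRing.maximalIdeal R := by
  by_cases h : p = ⊥
  · exact Or.inl h
  · right
    have : IsPrincipalIdealRing R := inferInstance
    have hmax : p.IsMaximal := hp.isMaximal h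
    exact IsLocalRing.eq_maximalIdeal hmax

lemma finite_of_isClosed_of_forall_isClosed_singleton {Y : Type*} [TopologicalSpace Y]
    [NoetherianSpace Y] [QuasiSober Y] {Z : Set Y} (hZ : IsClosed Z)
    (h : ∀ z ∈ Z, IsClosed ({z} : Set Y)) : Z.Finite := by
  obtain ⟨S, hSf, hSc, hSi, rfl⟩ := NoetherianSpace.exists_finite_set_isClosed_irreducible hZ
  refine Set.Finite.sUnion hSf fun s hs => ?_
  obtain ⟨x, hx⟩ := QuasiSober.sober (hSi s hs) (hSc s hs)
  have hxs : x ∈ s := hx.mem
  have hcl : IsClosed ({x} : Set Y) := h x ⟨s, hs, hxs⟩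
  have : s = {x} := by
    rw [← hx.def, hcl.closure_eq]
  rw [this]
  exact Set.finite_singleton x

lemma fromSpecStalk_bot {X : Scheme.{u}} [IsIntegral X] (Q : X)
    (b : ↥(Spec (X.presheaf.stalk Q))) (hb : PrimeSpectrum.asIdeal b = ⊥) :
    X.fromSpecStalk Q b = genericPoint X := by
  have hη : genericPoint X ⤳ Q := (genericPoint_spec X).specializes trivial
  have hmem : genericPoint X ∈ Set.range (X.fromSpecStalk Q) := by
    rw [Scheme.range_fromSpecStalk]; exact hη
  obtain ⟨p', hp'⟩ := hmem
  have h1 : b ⤳ p' := by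
    have : (show PrimeSpectrum (X.presheaf.stalk Q) from b) ≤
        (show PrimeSpectrum (X.presheaf.stalk Q) from p') := by
      change PrimeSpectrum.asIdeal b ≤ PrimeSpectrum.asIdeal p'
      rw [hb]
      exact bot_le
    exact (PrimeSpectrum.le_iff_specializes _ _).mp this
  have h2 : X.fromSpecStalk Q b ⤳ genericPoint X := by
    rw [← hp']
    exact h1.map (X.fromSpecStalk Q).continuous
  have h3 : genericPoint X ⤳ X.fromSpecStalk Q b := (genericPoint_spec X).specializes trivial
  exact (h2.antisymm h3).eq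

theorem isClosed_singleton_of_ne_genericPoint {X : Scheme.{u}} [IsIntegral X]
    [IsLocallyNoetherian X] (hval : ∀ P : X, ValuationRing (X.presheaf.stalk P))
    {P : X} (hP : P ≠ genericPoint X) : IsClosed ({P} : Set X) := by
  rw [← closure_eq_iff_isClosed]
  refine subset_antisymm ?_ subset_closure
  intro Q hQ
  have hPQ : P ⤳ Q := specializes_iff_mem_closure.mpr hQ
  have hmem : P ∈ Set.range (X.fromSpecStalk Q) := by
    rw [Scheme.range_fromSpecStalk]; exact hPQ
  obtain ⟨p, hp⟩ := hmem
  have := hval Q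
  have hprime : (PrimeSpectrum.asIdeal p).IsPrime := PrimeSpectrum.isPrime p
  rcases prime_eq_bot_or_eq_maximalIdeal (X.presheaf.stalk Q) (PrimeSpectrum.asIdeal p) with h | h
  · exfalso
    apply hP
    rw [← hp]
    exact fromSpecStalk_bot Q p h
  · have : p = IsLocalRing.closedPoint (X.presheaf.stalk Q) := PrimeSpectrum.ext h
    rw [this, Scheme.fromSpecStalk_closedPoint] at hp
    exact Set.mem_singleton_iff.mpr hp

end Fermat.Agent.S25.H507
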