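import Fermat.Agent.S25.H507.TwoChartsCurve
import Fermat.Agent.S25.Curve.Defs

set_option autoImplicit false

universe u

open AlgebraicGeometry CategoryTheory TopologicalSpace Opposite

namespace Fermat.Agent.S25.H507

variable {k : Type u} [Field k] {C : Scheme.{u}} (c : C ⟶ Spec (CommRingCat.of k))

lemma kSec_eq_sectionsRingHom (U : C.Opens) :
    kSec c U = Fermat.Agent.S25.Curve.sectionsRingHom c U := rfl

lemma secLineHom_eq_aeval (U : C.Opens) (s : Γ(C, U)) :
    letI := Fermat.Agent.S25.Curve.sectionsAlgebra c U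
    secLineHom c U s = (Polynomial.aeval (R := k) s).toRingHom := by
  let _ := Fermat.Agent.S25.Curve.sectionsAlgebra c U
  apply Polynomial.ringHom_ext
  · intro a
    simp [secLineHom, kSec_eq_sectionsRingHom,
      Fermat.Agent.S25.Curve.algebraMap_sectionsAlgebra]
  · simp [secLineHom]

variable [IsIntegral C]

/-- Transport of the chart results along an equality `U = regOpen C t`. -/
lemma isAffineOpen_and_finite_of_eq_regOpen [IsAlgClosed k] [IsProper c]
    (hval : ∀ P : C, ValuationRing (C.presheaf.stalk P)) {t : C.functionField}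
    (ht : t ∉ Set.range (kToK c)) (U : C.Opens) (hU : U = regOpen C t) (s : Γ(C, U))
    (hs : ∀ h : genericPoint C ∈ U, C.presheaf.germ U (genericPoint C) h s = t) :
    IsAffineOpen U ∧ (secLineHom c U s).Finite ∧ Function.Injective (secLineHom c U s) := by
  subst hU
  have hs' : s = regSection C t := by
    apply germ_injective_of_isIntegral C (genericPoint C) (genericPoint_mem_regOpen C t)
    rw [hs, germ_genericPoint_regSection]
  subst hs'
  have h := two_charts_of_not_mem_range c hval ht
  exact ⟨h.1, h.2.2.2.2.2.2.1, h.2.2.2.2.2.2.2.2.1⟩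

/-- A section with a pole at every point outside `U` has `U` as its regular locus. -/
lemma eq_regOpen_of_poles (U : C.Opens) (hη : genericPoint C ∈ U) (s : Γ(C, U))
    (hpole : ∀ P : C, P ∉ U → ∃ (W : C.Opens) (t : Γ(C, W)), P ∈ W ∧ P ∉ C.basicOpen t ∧
      C.presheaf.map (homOfLE (inf_le_left : U ⊓ W ≤ U)).op s *
        C.presheaf.map (homOfLE (inf_le_right : U ⊓ W ≤ W)).op t = 1) :
    U = regOpen C (C.presheaf.germ U (genericPoint C) hη s) := by
  apply le_antisymm
  · intro P hP
    exact (mem_regSet_iff C _ P).mpr ⟨U, hP, s, rfl⟩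
  · intro P hP
    by_contra hPU
    obtain ⟨W, w, hPW, hPw, hmul⟩ := hpole P hPU
    apply hPw
    rw [Scheme.mem_basicOpen C w P hPW]
    obtain ⟨a, ha⟩ := hP
    refine IsUnit.of_mul_eq_one a ?_
    apply algebraMap_stalk_injective C P
    rw [map_mul, map_one, ha, algebraMap_germ_eq_germ_genericPoint, mul_comm]
    have hηW : genericPoint C ∈ U ⊓ W := ⟨hη, genericPoint_mem_of_mem C hPW⟩
    have h1 := congrArg (C.presheaf.germ (U ⊓ W) (genericPoint C) hηW) hmul
    rw [map_mul, map_one] at h1
    erw [C.presheaf.germ_res_apply, C.presheaf.germ_res_apply] at h1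
    exact h1

omit [IsIntegral C] in
lemma nonempty_of_not_mem_range_sections (U : C.Opens) (s : Γ(C, U))
    (hs : s ∉ Set.range (Fermat.Agent.S25.Curve.sectionsRingHom c U)) :
    (U : Set C).Nonempty := by
  by_contra hne
  apply hs
  have hU : U = ⊥ := by
    ext P
    simp only [TopologicalSpace.Opens.coe_bot, Set.mem_empty_iff_false, iff_false]
    intro hP
    exact hne ⟨P, hP⟩
  subst hU
  exact ⟨0, Subsingleton.elim _ _⟩

variable [IsAlgClosed k] [IsProper c] [SmoothOfRelativeDimension 1 c]

/-- **S4 (Lemma Z)**, exact frozen statement of `Curve/LemmaZ.lean`. -/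
theorem isAffineOpen_and_finite_of_poles (U : C.Opens) (s : Γ(C, U))
    (hs : s ∉ Set.range (Fermat.Agent.S25.Curve.sectionsRingHom c U))
    (hpole : ∀ P : C, P ∉ U → ∃ (W : C.Opens) (t : Γ(C, W)), P ∈ W ∧ P ∉ C.basicOpen t ∧
      C.presheaf.map (homOfLE (inf_le_left : U ⊓ W ≤ U)).op s *
        C.presheaf.map (homOfLE (inf_le_right : U ⊓ W ≤ W)).op t = 1) :
    IsAffineOpen U ∧
      (letI := Fermat.Agent.S25.Curve.sectionsAlgebra c U
       (Polynomial.aeval (R := k) s).toRingHom.Finite) := by
  obtain ⟨P, hP⟩ := nonempty_of_not_mem_range_sections c U s hs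
  have hη : genericPoint C ∈ U := genericPoint_mem_of_mem C hP
  have ht : C.presheaf.germ U (genericPoint C) hη s ∉ Set.range (kToK c) := by
    rintro ⟨a, ha⟩
    apply hs
    refine ⟨a, ?_⟩
    apply germ_injective_of_isIntegral C (genericPoint C) hη
    rw [← kSec_eq_sectionsRingHom, germ_kSec, ha]
  have h := isAffineOpen_and_finite_of_eq_regOpen c
    (Fermat.Agent.S25.H627.valuationRing_stalk k c) ht U (eq_regOpen_of_poles U hη s hpole) s
    (fun _ => rfl)
  refine ⟨h.1, ?_⟩
  rw [← secLineHom_eq_aeval]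
  exact h.2.1

end Fermat.Agent.S25.H507
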