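import Fermat.Agent.S25.H507.ChartFinite

set_option autoImplicit false

universe u

open AlgebraicGeometry CategoryTheory TopologicalSpace Opposite

namespace Fermat.Agent.S25.H507

/-- Over an algebraically closed field, a root of a nonzero polynomial in a field extension
lies in the base field. -/
lemma mem_range_of_eval₂_eq_zero {k K : Type*} [Field k] [IsAlgClosed k] [Field K]
    (ι : k →+* K) (t : K) (p : Polynomial k) (hp : p ≠ 0) (h : p.eval₂ ι t = 0) :
    t ∈ Set.range ι := by
  let _ : Algebra k K := ι.toAlgebra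
  have halg : IsAlgebraic k t := ⟨p, hp, by rw [Polynomial.aeval_def]; exact h⟩
  have hint : IsIntegral k t := halg.isIntegral
  have hdeg : (minpoly k t).degree = 1 :=
    IsAlgClosed.degree_eq_one_of_irreducible k (minpoly.irreducible hint)
  exact minpoly.mem_range_of_degree_eq_one k t hdeg

variable {k : Type u} [Field k] {X : Scheme.{u}} (c : X ⟶ Spec (CommRingCat.of k))

/-- The structure map `k → Γ(X, U)`. -/
noncomputable def kSec (U : X.Opens) : k →+* Γ(X, U) :=
  ((Scheme.ΓSpecIso (CommRingCat.of k)).inv ≫ c.appTop ≫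
    X.presheaf.map (homOfLE (le_top : U ≤ ⊤)).op).hom

/-- The structure map `k → K(X)`. -/
noncomputable def kToK [IsIntegral X] : k →+* X.functionField :=
  ((Scheme.ΓSpecIso (CommRingCat.of k)).inv ≫ c.appTop ≫
    X.presheaf.germ ⊤ (genericPoint X) trivial).hom

lemma germ_kSec [IsIntegral X] (U : X.Opens) (h : genericPoint X ∈ U) (a : k) :
    X.presheaf.germ U (genericPoint X) h (kSec c U a) = kToK c a := by
  simp only [kSec, kToK, CommRingCat.hom_comp, RingHom.comp_apply]
  erw [X.presheaf.germ_res_apply]

/-- The polynomial evaluation `k[T] → Γ(X, U)` at a section. -/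
noncomputable def secLineHom (U : X.Opens) (x : Γ(X, U)) : Polynomial k →+* Γ(X, U) :=
  Polynomial.eval₂RingHom (kSec c U) x

lemma topIso_hom_lineRingHom (U : X.Opens) (x : Γ(X, U)) (p : Polynomial k) :
    U.topIso.hom (lineRingHom (U.ι ≫ c) (U.topIso.inv x) p) = secLineHom c U x p := by
  have h : (U.topIso.hom.hom.comp (lineRingHom (U.ι ≫ c) (U.topIso.inv x))) =
      secLineHom c U x := by
    apply Polynomial.ringHom_ext
    · intro a
      simp only [lineRingHom, secLineHom, RingHom.comp_apply, Polynomial.coe_eval₂RingHom,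
        Polynomial.eval₂_C]
      have h1 : U.ι.appTop ≫ U.topIso.hom = X.presheaf.map (homOfLE (le_top : U ≤ ⊤)).op := by
        rw [Scheme.Opens.ι_appTop, Scheme.Opens.topIso_hom]
        exact (X.presheaf.map_comp _ _).symm
      have h2 : ((Scheme.ΓSpecIso (CommRingCat.of k)).inv ≫ (U.ι ≫ c).appTop) ≫ U.topIso.hom =
          (Scheme.ΓSpecIso (CommRingCat.of k)).inv ≫ c.appTop ≫
            X.presheaf.map (homOfLE (le_top : U ≤ ⊤)).op := by
        rw [Scheme.Hom.comp_appTop, Category.assoc, Category.assoc, h1]
      exact congrArg (fun φ => φ.hom a) h2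
    · simp only [lineRingHom, secLineHom, RingHom.comp_apply, Polynomial.coe_eval₂RingHom,
        Polynomial.eval₂_X]
      exact congrArg (fun φ => φ.hom x) U.topIso.inv_hom_id
  exact congrArg (fun φ => φ p) h

lemma germ_secLineHom [IsIntegral X] (U : X.Opens) (h : genericPoint X ∈ U) (x : Γ(X, U))
    (p : Polynomial k) :
    X.presheaf.germ U (genericPoint X) h (secLineHom c U x p) =
      p.eval₂ (kToK c) (X.presheaf.germ U (genericPoint X) h x) := by
  have e : ((X.presheaf.germ U (genericPoint X) h).hom.comp (secLineHom c U x)) =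
      Polynomial.eval₂RingHom (kToK c) (X.presheaf.germ U (genericPoint X) h x) := by
    apply Polynomial.ringHom_ext
    · intro a
      simp only [secLineHom, RingHom.comp_apply, Polynomial.coe_eval₂RingHom, Polynomial.eval₂_C]
      exact germ_kSec c U h a
    · simp only [secLineHom, RingHom.comp_apply, Polynomial.coe_eval₂RingHom, Polynomial.eval₂_X]
  exact congrArg (fun φ => φ p) e

theorem lineRingHom_injective [IsIntegral X] [IsAlgClosed k] {t : X.functionField}
    (ht : t ∉ Set.range (kToK c)) :
    Function.Injective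
      (lineRingHom ((regOpen X t).ι ≫ c) ((regOpen X t).topIso.inv (regSection X t))) := by
  rw [injective_iff_map_eq_zero]
  intro p hp
  by_contra hp0
  apply ht
  refine mem_range_of_eval₂_eq_zero (kToK c) t p hp0 ?_
  have h1 := topIso_hom_lineRingHom c (regOpen X t) (regSection X t) p
  rw [hp, map_zero] at h1
  have h2 := germ_secLineHom c (regOpen X t) (genericPoint_mem_regOpen X t) (regSection X t) p
  rw [← h1, map_zero, germ_genericPoint_regSection] at h2
  exact h2.symm

lemma inv_not_mem_range_kToK [IsIntegral X] {t : X.functionField}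
    (ht : t ∉ Set.range (kToK c)) : t⁻¹ ∉ Set.range (kToK c) := by
  rintro ⟨a, ha⟩
  apply ht
  refine ⟨a⁻¹, ?_⟩
  rw [map_inv₀, ha, inv_inv]

lemma ne_zero_of_not_mem_range_kToK [IsIntegral X] {t : X.functionField}
    (ht : t ∉ Set.range (kToK c)) : t ≠ 0 := by
  rintro rfl
  exact ht ⟨0, map_zero _⟩

/-- Existence of a nonconstant rational function, given an affine open whose coordinate ring
is not a field. -/
theorem exists_not_mem_range_kToK [IsIntegral X] (V : X.Opens) (hV : (V : Set X).Nonempty)
    (hF : ¬ IsField Γ(X, V)) : ∃ t : X.functionField, t ∉ Set.range (kToK c) := by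
  have hη : genericPoint X ∈ V := by
    obtain ⟨P, hP⟩ := hV
    exact genericPoint_mem_of_mem X hP
  have hinj := germ_injective_of_isIntegral X (genericPoint X) hη
  by_contra hall
  have hall : ∀ t : X.functionField, t ∈ Set.range (kToK c) := by
    intro t
    by_contra h
    exact hall ⟨t, h⟩
  apply hF
  have hsurj : Function.Surjective (kSec c V) := by
    intro s
    obtain ⟨a, ha⟩ := hall (X.presheaf.germ V (genericPoint X) hη s)
    refine ⟨a, hinj ?_⟩
    rw [germ_kSec, ha]
  have : Nonempty V := ⟨⟨_, hη⟩⟩
  have hbij : Function.Bijective (kSec c V) := ⟨(kSec c V).injective, hsurj⟩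
  exact (RingEquiv.ofBijective _ hbij).symm.toMulEquiv.isField (Field.toIsField k)

end Fermat.Agent.S25.H507
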