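import Mathlib

/-!
# Regular locus of a rational function on an integral scheme

For an integral scheme `X` and `t` in its function field, `regOpen X t` is the open set of points
`P` such that `t` lies in the image of the stalk at `P`, and `regSection X t` is the unique
section over `regOpen X t` whose germ at the generic point is `t`.
-/

set_option autoImplicit false

universe u

open AlgebraicGeometry CategoryTheory TopologicalSpace Opposite

namespace Fermat.Agent.S25.H507

variable (X : Scheme.{u}) [IsIntegral X]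

/-- The set of points where the rational function `t` is regular. -/
def regSet (t : X.functionField) : Set X :=
  {P | t ∈ Set.range (algebraMap (X.presheaf.stalk P) X.functionField)}

lemma genericPoint_mem_of_mem {U : X.Opens} {P : X} (hP : P ∈ U) : genericPoint X ∈ U :=
  ((genericPoint_spec X).mem_open_set_iff U.isOpen).mpr ⟨P, trivial, hP⟩

lemma algebraMap_germ_eq_germ_genericPoint {U : X.Opens} {P : X} (hP : P ∈ U) (s : Γ(X, U)) :
    algebraMap (X.presheaf.stalk P) X.functionField (X.presheaf.germ U P hP s) =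
      X.presheaf.germ U (genericPoint X) (genericPoint_mem_of_mem X hP) s := by
  have : Nonempty U := ⟨⟨P, hP⟩⟩
  exact X.algebraMap_germ_eq_germToFunctionField hP s

lemma mem_regSet_iff (t : X.functionField) (P : X) :
    P ∈ regSet X t ↔ ∃ (U : X.Opens) (hP : P ∈ U) (s : Γ(X, U)),
      X.presheaf.germ U (genericPoint X) (genericPoint_mem_of_mem X hP) s = t := by
  constructor
  · rintro ⟨a, ha⟩
    obtain ⟨U, hP, s, rfl⟩ := X.presheaf.exists_germ_eq a
    exact ⟨U, hP, s, by rw [← ha, algebraMap_germ_eq_germ_genericPoint]⟩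
  · rintro ⟨U, hP, s, hs⟩
    exact ⟨X.presheaf.germ U P hP s, by rw [algebraMap_germ_eq_germ_genericPoint, hs]⟩

lemma isOpen_regSet (t : X.functionField) : IsOpen (regSet X t) := by
  rw [isOpen_iff_forall_mem_open]
  intro P hP
  obtain ⟨U, hPU, s, hs⟩ := (mem_regSet_iff X t P).mp hP
  refine ⟨U, fun Q hQ => (mem_regSet_iff X t Q).mpr ⟨U, hQ, s, hs⟩, U.isOpen, hPU⟩

/-- The open set of points where the rational function `t` is regular. -/
def regOpen (t : X.functionField) : X.Opens := ⟨regSet X t, isOpen_regSet X t⟩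

lemma mem_regOpen_iff (t : X.functionField) (P : X) :
    P ∈ regOpen X t ↔ t ∈ Set.range (algebraMap (X.presheaf.stalk P) X.functionField) :=
  Iff.rfl

lemma genericPoint_mem_regOpen (t : X.functionField) : genericPoint X ∈ regOpen X t := by
  rw [mem_regOpen_iff]
  refine ⟨t, ?_⟩
  simp [RingHom.algebraMap_toAlgebra]

/-- index type of local representatives of `t`. -/
def RegRep (t : X.functionField) : Type u :=
  {p : Σ U : X.Opens, Γ(X, U) // ∃ h : genericPoint X ∈ p.1, X.presheaf.germ p.1 (genericPoint X) h p.2 = t}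

lemma regOpen_eq_iSup (t : X.functionField) :
    regOpen X t = ⨆ i : RegRep X t, i.1.1 := by
  ext P
  simp only [SetLike.mem_coe, Opens.mem_iSup]
  rw [← SetLike.mem_coe]
  change P ∈ regSet X t ↔ _
  rw [mem_regSet_iff]
  constructor
  · rintro ⟨U, hP, s, hs⟩
    exact ⟨⟨⟨U, s⟩, ⟨_, hs⟩⟩, hP⟩
  · rintro ⟨⟨⟨U, s⟩, ⟨h, hs⟩⟩, hP⟩
    exact ⟨U, hP, s, hs⟩

theorem exists_regSection (t : X.functionField) :
    ∃ s : Γ(X, regOpen X t),
      X.presheaf.germ (regOpen X t) (genericPoint X) (genericPoint_mem_regOpen X t) s = t := by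
  have hle : ∀ i : RegRep X t, i.1.1 ≤ regOpen X t := fun i => by
    rw [regOpen_eq_iSup]; exact le_iSup (fun i : RegRep X t => i.1.1) i
  have hcompat : TopCat.Presheaf.IsCompatible X.sheaf.1 (fun i : RegRep X t => i.1.1)
      (fun i => i.1.2) := by
    intro i j
    obtain ⟨hi, hsi⟩ := i.2
    obtain ⟨hj, hsj⟩ := j.2
    have hij : genericPoint X ∈ i.1.1 ⊓ j.1.1 := ⟨hi, hj⟩
    apply germ_injective_of_isIntegral X (genericPoint X) hij
    erw [X.presheaf.germ_res_apply, X.presheaf.germ_res_apply]
    rw [hsi, hsj]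
  obtain ⟨s, hs, -⟩ := X.sheaf.existsUnique_gluing' (fun i : RegRep X t => i.1.1) (regOpen X t)
    (fun i => homOfLE (hle i)) (regOpen_eq_iSup X t).le (fun i => i.1.2) hcompat
  refine ⟨s, ?_⟩
  obtain ⟨U, hP, s', hs'⟩ := (mem_regSet_iff X t _).mp (genericPoint_mem_regOpen X t)
  have := hs ⟨⟨U, s'⟩, ⟨_, hs'⟩⟩
  refine Eq.trans ?_ hs'
  simp only at this
  rw [← this]
  erw [X.presheaf.germ_res_apply]

/-- The section over `regOpen X t` representing `t`. -/
noncomputable def regSection (t : X.functionField) : Γ(X, regOpen X t) :=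
  (exists_regSection X t).choose

lemma germ_genericPoint_regSection (t : X.functionField) :
    X.presheaf.germ (regOpen X t) (genericPoint X) (genericPoint_mem_regOpen X t)
      (regSection X t) = t :=
  (exists_regSection X t).choose_spec

lemma algebraMap_germ_regSection (t : X.functionField) {P : X} (hP : P ∈ regOpen X t) :
    algebraMap (X.presheaf.stalk P) X.functionField
      (X.presheaf.germ (regOpen X t) P hP (regSection X t)) = t := by
  rw [algebraMap_germ_eq_germ_genericPoint, germ_genericPoint_regSection]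

lemma algebraMap_stalk_injective (P : X) :
    Function.Injective (algebraMap (X.presheaf.stalk P) X.functionField) :=
  IsFractionRing.injective _ _

lemma regOpen_sup_regOpen_inv (t : X.functionField) (P : X)
    [ValuationRing (X.presheaf.stalk P)] :
    P ∈ regOpen X t ∨ P ∈ regOpen X t⁻¹ := by
  rcases ValuationRing.isInteger_or_isInteger (X.presheaf.stalk P) t with h | h
  · exact Or.inl h
  · exact Or.inr h

lemma mem_basicOpen_regSection_iff {t : X.functionField} (ht : t ≠ 0) (P : X) :
    P ∈ X.basicOpen (regSection X t) ↔ P ∈ regOpen X t ⊓ regOpen X t⁻¹ := by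
  constructor
  · intro hP
    have hP0 : P ∈ regOpen X t := X.basicOpen_le _ hP
    refine ⟨hP0, ?_⟩
    rw [Scheme.mem_basicOpen X _ P hP0] at hP
    obtain ⟨u, hu⟩ := hP
    refine ⟨((u⁻¹ : (X.presheaf.stalk P)ˣ) : X.presheaf.stalk P), ?_⟩
    have h1 := algebraMap_germ_regSection X t hP0
    rw [← hu] at h1
    apply eq_inv_of_mul_eq_one_left
    rw [← h1, ← map_mul, Units.inv_mul, map_one]
  · rintro ⟨hP0, a, ha⟩
    rw [Scheme.mem_basicOpen X _ P hP0]
    have h1 := algebraMap_germ_regSection X t hP0
    refine IsUnit.of_mul_eq_one a ?_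
    apply algebraMap_stalk_injective X P
    rw [map_mul, map_one, h1, ha]
    exact mul_inv_cancel₀ ht

lemma basicOpen_regSection {t : X.functionField} (ht : t ≠ 0) :
    X.basicOpen (regSection X t) = regOpen X t ⊓ regOpen X t⁻¹ := by
  ext P
  exact mem_basicOpen_regSection_iff X ht P

lemma basicOpen_regSection_inv {t : X.functionField} (ht : t ≠ 0) :
    X.basicOpen (regSection X t⁻¹) = regOpen X t ⊓ regOpen X t⁻¹ := by
  rw [basicOpen_regSection X (inv_ne_zero ht), inv_inv, inf_comm]

lemma regSection_mul_regSection_inv {t : X.functionField} (ht : t ≠ 0) :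
    X.presheaf.map (homOfLE (inf_le_left : regOpen X t ⊓ regOpen X t⁻¹ ≤ regOpen X t)).op
        (regSection X t) *
      X.presheaf.map (homOfLE (inf_le_right : regOpen X t ⊓ regOpen X t⁻¹ ≤ regOpen X t⁻¹)).op
        (regSection X t⁻¹) = 1 := by
  have hg : genericPoint X ∈ regOpen X t ⊓ regOpen X t⁻¹ :=
    ⟨genericPoint_mem_regOpen X t, genericPoint_mem_regOpen X t⁻¹⟩
  apply germ_injective_of_isIntegral X (genericPoint X) hg
  rw [map_mul, map_one]
  erw [X.presheaf.germ_res_apply, X.presheaf.germ_res_apply]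
  rw [germ_genericPoint_regSection, germ_genericPoint_regSection]
  exact mul_inv_cancel₀ ht

section AffineLine

variable {k : Type u} [Field k] {Y : Scheme.{u}}

/-- The ring homomorphism `k[T] → Γ(Y, ⊤)` attached to a `k`-scheme and a global section. -/
noncomputable def lineRingHom (g : Y ⟶ Spec (CommRingCat.of k)) (x : Γ(Y, ⊤)) :
    Polynomial k →+* Γ(Y, ⊤) :=
  Polynomial.eval₂RingHom ((Scheme.ΓSpecIso (CommRingCat.of k)).inv ≫ g.appTop).hom x

/-- The morphism to the affine line attached to a global section. -/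
noncomputable def toLine (g : Y ⟶ Spec (CommRingCat.of k)) (x : Γ(Y, ⊤)) :
    Y ⟶ Spec (CommRingCat.of (Polynomial k)) :=
  Y.toSpecΓ ≫ Spec.map (CommRingCat.ofHom (lineRingHom g x))

/-- The structure morphism of the affine line. -/
noncomputable def lineStr (k : Type u) [Field k] :
    Spec (CommRingCat.of (Polynomial k)) ⟶ Spec (CommRingCat.of k) :=
  Spec.map (CommRingCat.ofHom (Polynomial.C : k →+* Polynomial k))

lemma toLine_lineStr (g : Y ⟶ Spec (CommRingCat.of k)) (x : Γ(Y, ⊤)) :
    toLine g x ≫ lineStr k = g := by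
  apply ext_to_Spec
  simp only [toLine, lineStr, Category.assoc, ← Spec.map_comp]
  simp only [Scheme.Γ_obj, Scheme.Γ_map, Quiver.Hom.unop_op, Scheme.Hom.comp_appTop,
    Scheme.toSpecΓ_appTop, Scheme.ΓSpecIso_naturality, Iso.inv_hom_id_assoc]
  ext a
  simp [lineRingHom]

/-- the coordinate function on the affine line -/
noncomputable def lineCoord (k : Type u) [Field k] :
    Γ(Spec (CommRingCat.of (Polynomial k)), ⊤) :=
  (Scheme.ΓSpecIso (CommRingCat.of (Polynomial k))).inv (Polynomial.X : Polynomial k)

lemma toLine_appTop_lineCoord (g : Y ⟶ Spec (CommRingCat.of k)) (x : Γ(Y, ⊤)) :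
    (toLine g x).appTop (lineCoord k) = x := by
  simp only [toLine, lineCoord, Scheme.Hom.comp_appTop, Scheme.toSpecΓ_appTop,
    Scheme.ΓSpecIso_naturality]
  simp [lineRingHom]

end AffineLine

end Fermat.Agent.S25.H507
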