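import Fermat.Agent.S25.H507.Nonconstant

set_option autoImplicit false

universe u

open AlgebraicGeometry CategoryTheory TopologicalSpace Opposite

namespace Fermat.Agent.S25.H507

variable {k : Type u} [Field k] {X : Scheme.{u}} (c : X ⟶ Spec (CommRingCat.of k))

lemma secLineHom_eq_comp (U : X.Opens) (x : Γ(X, U)) :
    secLineHom c U x =
      U.topIso.hom.hom.comp (lineRingHom (U.ι ≫ c) (U.topIso.inv x)) :=
  RingHom.ext fun p => (topIso_hom_lineRingHom c U x p).symm

lemma secLineHom_finite_of_lineRingHom_finite (U : X.Opens) (x : Γ(X, U))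
    (h : (lineRingHom (U.ι ≫ c) (U.topIso.inv x)).Finite) : (secLineHom c U x).Finite := by
  rw [secLineHom_eq_comp]
  refine RingHom.Finite.comp (RingHom.Finite.of_surjective _ ?_) h
  exact (ConcreteCategory.bijective_of_isIso U.topIso.hom).2

lemma secLineHom_injective_of_lineRingHom_injective (U : X.Opens) (x : Γ(X, U))
    (h : Function.Injective (lineRingHom (U.ι ≫ c) (U.topIso.inv x))) :
    Function.Injective (secLineHom c U x) := by
  rw [secLineHom_eq_comp]
  exact (ConcreteCategory.bijective_of_isIso U.topIso.hom).1.comp h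

variable [IsIntegral X]

/-- **Two charts from a nonconstant rational function.** -/
theorem two_charts_of_not_mem_range [IsAlgClosed k] [IsProper c]
    (hval : ∀ P : X, ValuationRing (X.presheaf.stalk P)) {t : X.functionField}
    (ht : t ∉ Set.range (kToK c)) :
    IsAffineOpen (regOpen X t) ∧ IsAffineOpen (regOpen X t⁻¹) ∧
      regOpen X t ⊔ regOpen X t⁻¹ = ⊤ ∧
      X.basicOpen (regSection X t) = regOpen X t ⊓ regOpen X t⁻¹ ∧
      X.basicOpen (regSection X t⁻¹) = regOpen X t ⊓ regOpen X t⁻¹ ∧
      X.presheaf.map (homOfLE (inf_le_left : regOpen X t ⊓ regOpen X t⁻¹ ≤ regOpen X t)).op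
          (regSection X t) *
        X.presheaf.map (homOfLE (inf_le_right : regOpen X t ⊓ regOpen X t⁻¹ ≤ regOpen X t⁻¹)).op
          (regSection X t⁻¹) = 1 ∧
      (secLineHom c (regOpen X t) (regSection X t)).Finite ∧
      (secLineHom c (regOpen X t⁻¹) (regSection X t⁻¹)).Finite ∧
      Function.Injective (secLineHom c (regOpen X t) (regSection X t)) ∧
      Function.Injective (secLineHom c (regOpen X t⁻¹) (regSection X t⁻¹)) := by
  have ht0 := ne_zero_of_not_mem_range_kToK c ht
  have ht' := inv_not_mem_range_kToK c ht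
  have hi := lineRingHom_injective c ht
  have hi' := lineRingHom_injective c ht'
  refine ⟨isAffineOpen_regOpen c ht0 hval hi,
    isAffineOpen_regOpen c (inv_ne_zero ht0) hval hi', ?_,
    basicOpen_regSection X ht0, basicOpen_regSection_inv X ht0,
    regSection_mul_regSection_inv X ht0,
    secLineHom_finite_of_lineRingHom_finite c _ _ (lineRingHom_finite c ht0 hval hi),
    secLineHom_finite_of_lineRingHom_finite c _ _
      (lineRingHom_finite c (inv_ne_zero ht0) hval hi'),
    secLineHom_injective_of_lineRingHom_injective c _ _ hi,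
    secLineHom_injective_of_lineRingHom_injective c _ _ hi'⟩
  rw [eq_top_iff]
  intro P _
  have := hval P
  exact regOpen_sup_regOpen_inv X t P

/-- **C4 (two charts), hypothesis-minimal form.** -/
theorem exists_two_charts [IsAlgClosed k] [IsProper c]
    (hval : ∀ P : X, ValuationRing (X.presheaf.stalk P))
    (V : X.Opens) (hV : (V : Set X).Nonempty) (hF : ¬ IsField Γ(X, V)) :
    ∃ (U0 U1 : X.Opens) (x : Γ(X, U0)) (y : Γ(X, U1)),
      IsAffineOpen U0 ∧ IsAffineOpen U1 ∧ U0 ⊔ U1 = ⊤ ∧
      X.basicOpen x = U0 ⊓ U1 ∧ X.basicOpen y = U0 ⊓ U1 ∧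
      X.presheaf.map (homOfLE (inf_le_left : U0 ⊓ U1 ≤ U0)).op x *
        X.presheaf.map (homOfLE (inf_le_right : U0 ⊓ U1 ≤ U1)).op y = 1 ∧
      (secLineHom c U0 x).Finite ∧ (secLineHom c U1 y).Finite ∧
      Function.Injective (secLineHom c U0 x) ∧ Function.Injective (secLineHom c U1 y) := by
  obtain ⟨t, ht⟩ := exists_not_mem_range_kToK c V hV hF
  exact ⟨regOpen X t, regOpen X t⁻¹, regSection X t, regSection X t⁻¹,
    two_charts_of_not_mem_range c hval ht⟩

end Fermat.Agent.S25.H507
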